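import Mathlib

/-!
# Uniqueness of the extension of a valuation: an abstract irreducibility theorem

`F` a field with a faithful action of a finite group `G`, `W` a valuation ring of `F`.
Suppose that the valuation of `F^B` is "unramified of full residue degree" over `F^G`, and that
`G` is generated by the conjugates of a `B`-stable set `C` of elements preserving `W`.  If moreover
no element of `G` acts trivially modulo `W`, then `W` is `G`-stable, and has full residue degree
over `F^G`.
-/

set_option autoImplicit false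

noncomputable section

namespace Fermat.Agent.XM.Abs

open Finset

variable {F : Type*} [Field F] (G : Type*) [Group G] [MulSemiringAction G F]
  (W : ValuationSubring F)

/-- the intersection of the conjugates of `W`. -/
def R : Subring F where
  carrier := {x | ∀ g : G, g • x ∈ W}
  mul_mem' hx hy g := by rw [smul_mul']; exact mul_mem (hx g) (hy g)
  one_mem' g := by rw [smul_one]; exact one_mem W
  add_mem' hx hy g := by rw [smul_add]; exact add_mem (hx g) (hy g)
  zero_mem' g := by rw [smul_zero]; exact zero_mem W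
  neg_mem' hx g := by rw [smul_neg]; exact neg_mem (hx g)

variable {G W}

theorem mem_R {x : F} : x ∈ R G W ↔ ∀ g : G, g • x ∈ W := Iff.rfl

theorem R_le {x : F} (hx : x ∈ R G W) : x ∈ W := by
  have := hx 1
  rwa [one_smul] at this

theorem smul_mem_R (h : G) {x : F} (hx : x ∈ R G W) : h • x ∈ R G W := by
  intro g
  rw [← mul_smul]
  exact hx _

/-- the action on `R` -/
def act (h : G) (x : R G W) : R G W := ⟨h • (x : F), smul_mem_R h x.2⟩

@[simp] theorem coe_act (h : G) (x : R G W) : ((act h x : R G W) : F) = h • (x : F) := rfl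

variable (W) in
/-- the conjugate primes. -/
def PP (g : G) : Ideal (R G W) where
  carrier := {x | W.valuation (g • (x : F)) < 1}
  add_mem' {x y} hx hy := by
    show W.valuation (g • ((x : F) + y)) < 1
    rw [smul_add]
    exact Valuation.map_add_lt _ hx hy
  zero_mem' := by
    show W.valuation (g • (0 : F)) < 1
    rw [smul_zero, map_zero]
    exact zero_lt_one
  smul_mem' c {x} hx := by
    show W.valuation (g • ((c : F) * x)) < 1
    rw [smul_mul', map_mul]
    have h1 : W.valuation (g • (c : F)) ≤ 1 := (W.valuation_le_one_iff _).mpr (c.2 g)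
    rw [mul_comm]
    exact mul_lt_one_of_lt_of_le hx h1

theorem mem_PP {g : G} {x : R G W} : x ∈ PP W g ↔ W.valuation (g • (x : F)) < 1 := Iff.rfl

instance isPrime_PP (g : G) : (PP W g).IsPrime where
  ne_top' := by
    rw [Ideal.ne_top_iff_one, mem_PP]
    rw [show ((1 : R G W) : F) = 1 from rfl, smul_one, map_one]
    exact lt_irrefl _
  mem_or_mem' := by
    intro x y hxy
    rw [mem_PP, show ((x * y : R G W) : F) = (x : F) * y from rfl, smul_mul', map_mul] at hxy
    by_contra h
    push Not at h
    rw [mem_PP, mem_PP, not_lt, not_lt] at h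
    exact absurd hxy (not_lt.mpr (one_le_mul h.1 h.2))

theorem act_mem_PP {g h : G} {x : R G W} : act h x ∈ PP W g ↔ x ∈ PP W (g * h) := by
  rw [mem_PP, mem_PP, coe_act, mul_smul]

/-- `PP` only depends on ... -/
theorem PP_mul_right_mono {g g' h : G} (H : PP W g ≤ PP W g') : PP W (g * h) ≤ PP W (g' * h) := by
  intro x hx
  rw [← act_mem_PP] at hx ⊢
  exact H hx

theorem PP_mul_right {g g' h : G} (H : PP W g = PP W g') : PP W (g * h) = PP W (g' * h) :=
  le_antisymm (PP_mul_right_mono H.le) (PP_mul_right_mono H.ge)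

variable [Finite G]

/-- incomparability of the conjugates. -/
theorem PP_eq_of_le {g g' : G} (H : PP W g ≤ PP W g') : PP W g = PP W g' := by
  set h := g' * g⁻¹ with hh
  have h1 : ∀ n : ℕ, PP W g ≤ PP W (h ^ n * g) ∧ PP W (h ^ n * g) ≤ PP W (h ^ (n + 1) * g) := by
    intro n
    induction n with
    | zero =>
      constructor
      · rw [pow_zero, one_mul]
      · rw [pow_zero, one_mul, zero_add, pow_one, hh, inv_mul_cancel_right]; exact H
    | succ n ih =>
      refine ⟨ih.1.trans ih.2, ?_⟩
      have h2 : PP W (h ^ (n + 1) * g) ≤ PP W (h ^ (n + 1) * g') := by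
        have := H
        -- left multiplication: use conjugation through right multiplication
        have e1 : h ^ (n + 1) * g = (h ^ n * g) * (g⁻¹ * h * g) := by
          rw [pow_succ]; group
        have e2 : h ^ (n + 1 + 1) * g = (h ^ (n + 1) * g) * (g⁻¹ * h * g) := by
          rw [pow_succ h (n + 1)]; group
        have h3 := PP_mul_right_mono (h := g⁻¹ * h * g) ih.2
        rw [← e1, ← e2] at h3
        have e3 : h ^ (n + 1 + 1) * g = h ^ (n + 1) * g' := by
          rw [pow_succ h (n + 1), hh]; group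
        rwa [e3] at h3
      have e3 : h ^ (n + 1 + 1) * g = h ^ (n + 1) * g' := by
        rw [pow_succ h (n + 1), hh]; group
      rwa [e3]
  have hord := pow_orderOf_eq_one h
  have hpos : 0 < orderOf h := orderOf_pos h
  obtain ⟨m, hm⟩ : ∃ m, orderOf h = m + 1 := ⟨orderOf h - 1, by omega⟩
  refine le_antisymm H ?_
  have h2 : PP W (h ^ 1 * g) ≤ PP W (h ^ (m + 1) * g) := by
    have : ∀ k : ℕ, PP W (h ^ 1 * g) ≤ PP W (h ^ (k + 1) * g) := by
      intro k
      induction k with
      | zero => exact le_refl _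
      | succ k ih => exact ih.trans (h1 (k + 1)).2
    exact this m
  rw [← hm, hord, one_mul, pow_one, hh, inv_mul_cancel_right] at h2
  exact h2

/-- Transitivity of `B` on the primes over the same prime of `W ∩ F^B`. -/
theorem exists_PP_eq (B : Subgroup G)
    (H1 : ∀ x ∈ W, (∀ b ∈ B, b • x = x) → ∀ g : G, g • x ∈ W) (g : G) :
    ∃ b ∈ B, PP W g = PP W b := by
  classical
  by_contra hcon
  push Not at hcon
  have := Fintype.ofFinite G
  have hav : ¬ ((PP W g : Set (R G W)) ⊆ ⋃ b ∈ (↑(univ.filter fun b : G => b ∈ B) : Set G),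
      (PP W b : Set (R G W))) := by
    intro h
    rw [Ideal.subset_union_prime (f := fun b : G => PP W b) g g
      (fun i _ _ _ => isPrime_PP i)] at h
    obtain ⟨b, hb, hle⟩ := h
    rw [mem_filter] at hb
    exact hcon b hb.2 (PP_eq_of_le hle)
  rw [Set.not_subset] at hav
  obtain ⟨x, hxg, hxb⟩ := hav
  simp only [Set.mem_iUnion, not_exists, SetLike.mem_coe, mem_filter, mem_univ,
    true_and] at hxb
  set N : F := ∏ b : B, ((b : G) • (x : F)) with hN
  have hNR : N ∈ R G W := prod_mem fun b _ => smul_mem_R _ x.2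
  have hNfix : ∀ b ∈ B, b • N = N := by
    intro b hb
    rw [hN, smul_prod']
    refine Fintype.prod_equiv (Equiv.mulLeft (⟨b, hb⟩ : B)) _ _ fun c => ?_
    rw [Equiv.coe_mulLeft, Subgroup.coe_mul, mul_smul]
  have hNval : W.valuation N = 1 := by
    rw [hN, map_prod]
    refine prod_eq_one fun b _ => ?_
    have h1 := hxb b b.2
    rw [mem_PP, not_lt] at h1
    exact le_antisymm ((W.valuation_le_one_iff _).mpr (x.2 b)) h1
  have hN0 : N ≠ 0 := by
    intro h; rw [h, map_zero] at hNval; exact zero_ne_one hNval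
  have hinv : N⁻¹ ∈ W := by
    rw [← W.valuation_le_one_iff, map_inv₀, hNval, inv_one]
  have hinvR : ∀ g : G, g • N⁻¹ ∈ W := by
    apply H1 _ hinv
    intro b hb
    rw [smul_inv'', hNfix b hb]
  have h2 : W.valuation (g • N) < 1 := by
    have h3 : N = (x : F) * ∏ b ∈ univ.erase (1 : B), ((b : G) • (x : F)) := by
      rw [hN, ← mul_prod_erase univ _ (mem_univ (1 : B))]
      rw [show (((1 : B) : G)) • (x : F) = x from by rw [Subgroup.coe_one, one_smul]]
    have h4 : (∏ b ∈ univ.erase (1 : B), ((b : G) • (x : F))) ∈ R G W :=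
      prod_mem fun b _ => smul_mem_R _ x.2
    rw [h3, smul_mul', map_mul]
    exact mul_lt_one_of_lt_of_le hxg ((W.valuation_le_one_iff _).mpr (h4 g))
  have h5 := (W.valuation_le_one_iff _).mpr (hinvR g)
  rw [smul_inv'', map_inv₀] at h5
  have h6 : W.valuation (g • N) ≠ 0 := by
    rw [Valuation.ne_zero_iff]
    exact (smul_ne_zero_iff_ne g).mpr hN0
  have h7 : 1 < (W.valuation (g • N))⁻¹ := (one_lt_inv₀ (zero_lt_iff.mpr h6)).mpr h2
  exact absurd h5 (not_le.mpr h7)

/-- an element of a finite group mapping `W` to itself preserves the valuation ideal. -/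
theorem valuation_smul_lt_one {c : G} (hc : ∀ x ∈ W, c • x ∈ W) {x : F} :
    W.valuation (c • x) < 1 ↔ W.valuation x < 1 := by
  have hpow : ∀ n : ℕ, ∀ x ∈ W, (c ^ n) • x ∈ W := by
    intro n
    induction n with
    | zero => intro x hx; rwa [pow_zero, one_smul]
    | succ n ih => intro x hx; rw [pow_succ', mul_smul]; exact hc _ (ih x hx)
  have hinv : ∀ x ∈ W, c⁻¹ • x ∈ W := by
    intro x hx
    have : c⁻¹ = c ^ (orderOf c - 1) := by
      rw [inv_eq_iff_mul_eq_one, ← pow_succ', Nat.sub_add_cancel (orderOf_pos c),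
        pow_orderOf_eq_one]
    rw [this]
    exact hpow _ _ hx
  have key : ∀ (d : G), (∀ x ∈ W, d • x ∈ W) → ∀ x : F, W.valuation x < 1 →
      (∀ x ∈ W, d⁻¹ • x ∈ W) → W.valuation (d • x) < 1 := by
    intro d hd x hx hd'
    by_contra hcon
    rw [not_lt] at hcon
    have hx' : x ∈ W := (W.valuation_le_one_iff x).mp hx.le
    have hdx : W.valuation (d • x) = 1 :=
      le_antisymm ((W.valuation_le_one_iff _).mpr (hd x hx')) hcon
    have h1 : (d • x)⁻¹ ∈ W := by
      rw [← W.valuation_le_one_iff, map_inv₀, hdx, inv_one]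
    have h2 := hd' _ h1
    rw [smul_inv'', inv_smul_smul] at h2
    have h3 := (W.valuation_le_one_iff _).mpr h2
    rw [map_inv₀] at h3
    by_cases hx0 : x = 0
    · rw [hx0, smul_zero, map_zero] at hcon
      exact absurd hcon (not_le.mpr zero_lt_one)
    · have h6 : W.valuation x ≠ 0 := (Valuation.ne_zero_iff _).mpr hx0
      exact absurd h3 (not_le.mpr ((one_lt_inv₀ (zero_lt_iff.mpr h6)).mpr hx))
  constructor
  · intro h
    have := key c⁻¹ hinv (c • x) h (by rw [inv_inv]; exact hc)
    rwa [inv_smul_smul] at this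
  · intro h
    exact key c hc x h hinv

/-- the prime `PP W 1` is `G`-stable. -/
theorem PP_eq_one (B : Subgroup G)
    (H1 : ∀ x ∈ W, (∀ b ∈ B, b • x = x) → ∀ g : G, g • x ∈ W) (C : Set G)
    (hC1 : ∀ c ∈ C, ∀ x ∈ W, c • x ∈ W) (hC2 : ∀ b ∈ B, ∀ c ∈ C, b * c * b⁻¹ ∈ C)
    (hC3 : Subgroup.normalClosure C = ⊤) (g : G) : PP W g = PP W 1 := by
  let D : Subgroup G :=
    { carrier := {g | PP W g = PP W 1}
      mul_mem' := by
        intro a b ha hb
        have h1 := PP_mul_right (h := b) (show PP W a = PP W 1 from ha)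
        rw [one_mul] at h1
        exact h1.trans hb
      one_mem' := rfl
      inv_mem' := by
        intro a ha
        have h1 := PP_mul_right (h := a⁻¹) (show PP W a = PP W 1 from ha)
        rw [one_mul, mul_inv_cancel] at h1
        exact h1.symm }
  have hCD : ∀ c ∈ C, c ∈ D := by
    intro c hc
    show PP W c = PP W 1
    ext x
    rw [mem_PP, mem_PP, one_smul, valuation_smul_lt_one (hC1 c hc)]
  have hDtop : D = ⊤ := by
    rw [eq_top_iff, ← hC3, Subgroup.normalClosure, Subgroup.closure_le]
    intro x hx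
    obtain ⟨c, hc, hconj⟩ := Group.mem_conjugatesOfSet_iff.mp hx
    obtain ⟨a, rfl⟩ := isConj_iff.mp hconj
    obtain ⟨b, hb, hab⟩ := exists_PP_eq B H1 a
    have hd : a * b⁻¹ ∈ D := by
      have h1 := PP_mul_right (h := b⁻¹) hab
      rw [mul_inv_cancel] at h1
      exact h1
    have h2 : a * c * a⁻¹ = (a * b⁻¹) * (b * c * b⁻¹) * (a * b⁻¹)⁻¹ := by group
    rw [SetLike.mem_coe, h2]
    exact D.mul_mem (D.mul_mem hd (hCD _ (hC2 b hb c hc))) (D.inv_mem hd)
  have : g ∈ D := by rw [hDtop]; trivial
  exact this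

omit [Finite G] in
theorem exists_scale {ι : Type*} [Finite ι] (c : ι → F) (hc : c ≠ 0) :
    ∃ j, c j ≠ 0 ∧ ∀ i, c i / c j ∈ W := by
  classical
  obtain ⟨i₀, hi₀⟩ : ∃ i, c i ≠ 0 := by
    by_contra h
    push Not at h
    exact hc (funext h)
  have := Fintype.ofFinite ι
  obtain ⟨j, -, hj⟩ := Finset.exists_max_image Finset.univ (fun i => W.valuation (c i))
    ⟨i₀, Finset.mem_univ _⟩
  have hj0 : c j ≠ 0 := by
    intro h0
    have h1 := hj i₀ (Finset.mem_univ _)
    rw [h0, map_zero, le_zero_iff, map_eq_zero] at h1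
    exact hi₀ h1
  refine ⟨j, hj0, fun i => ?_⟩
  rw [← W.valuation_le_one_iff, map_div₀]
  exact div_le_one_of_le₀ (hj i (Finset.mem_univ _)) zero_le

/-- the residue of the conjugate of an element of `R`. -/
def phi (g : G) : R G W →+* IsLocalRing.ResidueField W where
  toFun x := IsLocalRing.residue W ⟨g • (x : F), x.2 g⟩
  map_one' := by
    rw [← map_one (IsLocalRing.residue W)]
    congr 1
    exact Subtype.ext (smul_one g)
  map_mul' x y := by
    rw [← map_mul]
    congr 1
    exact Subtype.ext (smul_mul' g _ _)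
  map_zero' := by
    rw [← map_zero (IsLocalRing.residue W)]
    congr 1
    exact Subtype.ext (smul_zero g)
  map_add' x y := by
    rw [← map_add]
    congr 1
    exact Subtype.ext (smul_add g _ _)

omit [Finite G] in
theorem residue_eq_zero_iff (x : W) : IsLocalRing.residue W x = 0 ↔ W.valuation (x : F) < 1 := by
  rw [IsLocalRing.residue_eq_zero_iff, ← W.valuation_lt_one_iff]

omit [Finite G] in
theorem phi_eq_zero {g : G} {x : R G W} : phi g x = 0 ↔ W.valuation (g • (x : F)) < 1 :=
  residue_eq_zero_iff _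

omit [Finite G] in
theorem phi_injective (H2 : ∀ g : G, (∀ x ∈ R G W, W.valuation (g • (x : F) - x) < 1) → g = 1) :
    Function.Injective (phi (G := G) (W := W)) := by
  intro g h hgh
  have key : ∀ y ∈ R G W, W.valuation ((g * h⁻¹) • (y : F) - y) < 1 := by
    intro y hy
    have h1 := RingHom.congr_fun hgh ⟨h⁻¹ • y, smul_mem_R _ hy⟩
    have h2 : IsLocalRing.residue W (⟨g • (h⁻¹ • y), smul_mem_R h⁻¹ hy g⟩ -
        ⟨h • (h⁻¹ • y), smul_mem_R h⁻¹ hy h⟩) = 0 := by
      rw [map_sub, sub_eq_zero]
      exact h1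
    rw [residue_eq_zero_iff] at h2
    rw [mul_smul]
    have h3 : g • h⁻¹ • y - h • h⁻¹ • y = g • h⁻¹ • y - y := by rw [smul_inv_smul]
    rw [← h3]
    exact h2
  have := H2 _ key
  rwa [mul_inv_eq_one] at this

/-- existence of elements of `R` whose residues are independent over the residues of invariants. -/
theorem exists_indep (hP : ∀ g : G, PP W g = PP W 1)
    (H2 : ∀ g : G, (∀ x ∈ R G W, W.valuation (g • (x : F) - x) < 1) → g = 1) :
    ∃ r : G → R G W, ∀ c : G → F, (∀ i, c i ∈ W) → (∀ i (g : G), g • c i = c i) →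
      W.valuation (∑ᶠ i, c i * (r i : F)) < 1 → ∀ i, W.valuation (c i) < 1 := by
  classical
  have := Fintype.ofFinite G
  let k := IsLocalRing.ResidueField W
  let vec : R G W → (G → k) := fun x g => phi g x
  have hLI : LinearIndependent k (fun g : G => ((phi (W := W) g : R G W →+* k) : R G W → k)) := by
    have h1 := linearIndependent_monoidHom (R G W) k
    have h2 := h1.comp (fun g : G => (phi (W := W) g : R G W →* k)) (by
      intro g h hgh
      apply phi_injective H2
      ext x
      exact DFunLike.congr_fun hgh x)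
    exact h2
  have hspan : Submodule.span k (Set.range vec) = ⊤ := by
    by_contra hne
    obtain ⟨f, hf0, hf⟩ := Submodule.exists_le_ker_of_lt_top _ (lt_top_iff_ne_top.mpr hne)
    apply hf0
    have hfv : ∀ v : G → k, f v = ∑ g, v g * f (Pi.single g 1) := by
      intro v
      conv_lhs => rw [pi_eq_sum_univ' v]
      rw [map_sum]
      refine sum_congr rfl fun g _ => ?_
      rw [map_smul, smul_eq_mul]
    have h1 : ∑ g, f (Pi.single g 1) • ((phi (W := W) g : R G W →+* k) : R G W → k) = 0 := by
      ext x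
      have h2 : f (vec x) = 0 := hf (Submodule.subset_span ⟨x, rfl⟩)
      rw [hfv] at h2
      rw [Finset.sum_apply]
      simp only [Pi.smul_apply, smul_eq_mul, Pi.zero_apply]
      rw [← h2]
      exact sum_congr rfl fun g _ => mul_comm _ _
    have h3 := Fintype.linearIndependent_iff.mp hLI _ h1
    ext v
    show f (Pi.single v 1) = 0
    exact h3 v
  obtain ⟨b, hbs, hbspan, hbli⟩ := exists_linearIndependent k (Set.range vec)
  have hbtop : Submodule.span k b = ⊤ := hbspan.trans hspan
  let bas : Module.Basis b k (G → k) := Module.Basis.mk hbli (by rw [Subtype.range_coe]; exact hbtop.ge)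
  have hcard : Nat.card b = Nat.card G := by
    rw [← Module.finrank_eq_nat_card_basis bas, Module.finrank_fintype_fun_eq_card,
      Nat.card_eq_fintype_card]
  have : Finite b := Module.Finite.finite_basis bas
  obtain ⟨e⟩ : Nonempty (G ≃ b) := Finite.card_eq.mp hcard.symm
  choose r hr using fun g : G => hbs (e g).2
  refine ⟨r, ?_⟩
  intro c hcW hcfix hsum i
  rw [finsum_eq_sum_of_fintype] at hsum
  have hcR : ∀ i, c i ∈ R G W := fun i g => by rw [hcfix]; exact hcW i
  have hmem : (∑ i, (⟨c i, hcR i⟩ : R G W) * r i) ∈ PP W (1 : G) := by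
    rw [mem_PP, one_smul]
    push_cast
    exact hsum
  have h1 : ∀ g : G, ∑ i, phi g (⟨c i, hcR i⟩ : R G W) * phi g (r i) = 0 := by
    intro g
    have h2 := hmem
    rw [← hP g, mem_PP, ← phi_eq_zero] at h2
    rw [← h2, map_sum]
    exact sum_congr rfl fun i _ => (map_mul _ _ _).symm
  have h2 : ∀ (g : G) (i : G), phi g (⟨c i, hcR i⟩ : R G W) = phi (1 : G) (⟨c i, hcR i⟩ : R G W) := by
    intro g i
    show IsLocalRing.residue W _ = IsLocalRing.residue W _
    congr 1
    apply Subtype.ext
    show g • c i = (1 : G) • c i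
    rw [hcfix, hcfix]
  have hli : LinearIndependent k (fun g : G => ((e g : b) : G → k)) :=
    hbli.comp e e.injective
  have h3 : ∑ i, phi (1 : G) (⟨c i, hcR i⟩ : R G W) • ((e i : b) : G → k) = 0 := by
    ext g
    rw [Finset.sum_apply]
    simp only [Pi.smul_apply, smul_eq_mul, Pi.zero_apply]
    rw [← h1 g]
    refine sum_congr rfl fun i _ => ?_
    rw [h2 g i, ← hr i]
  have h4 := Fintype.linearIndependent_iff.mp hli _ h3 i
  rw [phi_eq_zero, one_smul] at h4
  exact h4

/-- **Main abstract theorem.** -/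
theorem stable [FaithfulSMul G F] (hP : ∀ g : G, PP W g = PP W 1)
    (H2 : ∀ g : G, (∀ x ∈ R G W, W.valuation (g • (x : F) - x) < 1) → g = 1) :
    (∀ x ∈ W, ∀ g : G, g • x ∈ W) ∧
    ∃ r : G → F, (∀ i, r i ∈ W) ∧ (∀ c : G → F, (∀ i, c i ∈ W) → (∀ i (g : G), g • c i = c i) →
      W.valuation (∑ᶠ i, c i * r i) < 1 → ∀ i, W.valuation (c i) < 1) := by
  classical
  have := Fintype.ofFinite G
  obtain ⟨r, hr⟩ := exists_indep hP H2
  refine ⟨?_, fun i => r i, fun i => R_le (r i).2, hr⟩
  set E := FixedPoints.subfield G F with hE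
  have hfin : Module.finrank E F = Fintype.card G := FixedPoints.finrank_eq_card G F
  have hli : LinearIndependent E (fun i => (r i : F)) := by
    rw [Fintype.linearIndependent_iff]
    intro c hc0
    by_contra hne
    push Not at hne
    obtain ⟨i₀, hi₀⟩ := hne
    have hc : (fun i => (c i : F)) ≠ 0 := by
      intro h
      apply hi₀
      exact Subtype.ext (congrFun h i₀)
    obtain ⟨j, hj0, hj⟩ := exists_scale (W := W) _ hc
    have h1 := hr (fun i => (c i : F) / c j) hj (fun i g => by
      rw [smul_div₀', (c i).2 g, (c j).2 g]) (by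
      have : ∑ᶠ i, (c i : F) / c j * (r i : F) = 0 := by
        rw [finsum_eq_sum_of_fintype]
        have h2 : ∑ i, (c i : F) / c j * (r i : F) = (c j : F)⁻¹ * ∑ i, c i • (r i : F) := by
          rw [mul_sum]
          refine sum_congr rfl fun i _ => ?_
          rw [Subfield.smul_def, smul_eq_mul]
          ring
        rw [h2, hc0, mul_zero]
      rw [this, map_zero]
      exact zero_lt_one) j
    simp only [div_self hj0, map_one, lt_irrefl] at h1
  have hbtop := hli.span_eq_top_of_card_eq_finrank' hfin.symm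
  intro x hx g
  have hxs : x ∈ Submodule.span E (Set.range fun i => (r i : F)) := by rw [hbtop]; trivial
  obtain ⟨c, hc⟩ := (Submodule.mem_span_range_iff_exists_fun E).mp hxs
  have hcW : ∀ i, (c i : F) ∈ W := by
    by_contra hcon
    push Not at hcon
    obtain ⟨i₀, hi₀⟩ := hcon
    have hc' : (fun i => (c i : F)) ≠ 0 := by
      intro h
      apply hi₀
      rw [show (c i₀ : F) = 0 from congrFun h i₀]
      exact zero_mem W
    obtain ⟨j, hj0, hj⟩ := exists_scale (W := W) _ hc'
    have hjW : (c j : F) ∉ W := by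
      intro hmem
      apply hi₀
      have : (c i₀ : F) = c i₀ / c j * c j := by field_simp
      rw [this]
      exact mul_mem (hj i₀) hmem
    have hval : W.valuation ((c j : F)⁻¹) < 1 := by
      rw [map_inv₀]
      have h5 : 1 < W.valuation (c j : F) := by
        rw [← not_le, W.valuation_le_one_iff]
        exact hjW
      exact inv_lt_one_of_one_lt₀ h5
    have h1 := hr (fun i => (c i : F) / c j) hj (fun i g => by
      rw [smul_div₀', (c i).2 g, (c j).2 g]) (by
      have : ∑ᶠ i, (c i : F) / c j * (r i : F) = (c j : F)⁻¹ * x := by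
        rw [finsum_eq_sum_of_fintype, ← hc, mul_sum]
        refine sum_congr rfl fun i _ => ?_
        rw [Subfield.smul_def, smul_eq_mul]
        ring
      rw [this, map_mul]
      exact mul_lt_one_of_lt_of_le hval ((W.valuation_le_one_iff _).mpr hx)) j
    simp only [div_self hj0, map_one, lt_irrefl] at h1
  have hxR : x ∈ R G W := by
    rw [← hc]
    refine sum_mem fun i _ => ?_
    rw [Subfield.smul_def, smul_eq_mul]
    refine mul_mem ?_ (r i).2
    intro h
    rw [(c i).2 h]
    exact hcW i
  exact hxR g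

variable (G W) in
/-- the valuation ring of the fixed field -/
def O : Subring F where
  carrier := {x | x ∈ W ∧ ∀ g : G, g • x = x}
  mul_mem' hx hy := ⟨mul_mem hx.1 hy.1, fun g => by rw [smul_mul', hx.2, hy.2]⟩
  one_mem' := ⟨one_mem W, fun g => smul_one g⟩
  add_mem' hx hy := ⟨add_mem hx.1 hy.1, fun g => by rw [smul_add, hx.2, hy.2]⟩
  zero_mem' := ⟨zero_mem W, fun g => smul_zero g⟩
  neg_mem' hx := ⟨neg_mem hx.1, fun g => by rw [smul_neg, hx.2]⟩

omit [Finite G] in
theorem smul_mem_of_isIntegral {x : F} (hx : IsIntegral (O G W) x) (g : G) : g • x ∈ W := by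
  obtain ⟨p, hp, hpx⟩ := hx
  have h1 : Polynomial.eval₂ ((MulSemiringAction.toRingHom G F g).comp (algebraMap (O G W) F))
      (g • x) p = 0 := by
    have := Polynomial.hom_eval₂ p (algebraMap (O G W) F) (MulSemiringAction.toRingHom G F g) x
    rw [hpx, map_zero] at this
    exact this.symm
  let inc : O G W →+* W :=
    { toFun := fun y => ⟨y, y.2.1⟩
      map_one' := rfl
      map_mul' := fun _ _ => rfl
      map_zero' := rfl
      map_add' := fun _ _ => rfl }
  have h2 : (MulSemiringAction.toRingHom G F g).comp (algebraMap (O G W) F) =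
      (algebraMap W F).comp inc := by
    ext y
    exact y.2.2 g
  rw [h2, ← Polynomial.eval₂_map] at h1
  have h3 : IsIntegral W (g • x) := ⟨p.map inc, hp.map _, h1⟩
  obtain ⟨y, hy⟩ := (IsIntegrallyClosed.isIntegral_iff (R := W) (K := F)).mp h3
  rw [← hy]
  exact y.2

omit [Finite G] in
/-- full residue degree implies integrality. -/
theorem smul_mem_of_basis (B : Subgroup G) {ι : Type*} [Finite ι] [Nonempty ι] (b : ι → F)
    (hbW : ∀ i, b i ∈ W) (hbfix : ∀ i, ∀ h ∈ B, h • b i = b i)
    (hspan : ∀ x : F, (∀ h ∈ B, h • x = x) → ∃ c : ι → F, (∀ i (g : G), g • c i = c i) ∧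
      x = ∑ᶠ i, c i * b i)
    (hind : ∀ c : ι → F, (∀ i, c i ∈ W) → (∀ i (g : G), g • c i = c i) →
      W.valuation (∑ᶠ i, c i * b i) < 1 → ∀ i, W.valuation (c i) < 1) :
    ∀ x ∈ W, (∀ h ∈ B, h • x = x) → ∀ g : G, g • x ∈ W := by
  classical
  have := Fintype.ofFinite ι
  -- coefficients of elements of `W` lie in `W`
  have hcoef : ∀ x ∈ W, (∀ h ∈ B, h • x = x) → ∃ c : ι → O G W, x = ∑ i, c i • b i := by
    intro x hx hxB
    obtain ⟨c, hcfix, hc⟩ := hspan x hxB
    have hcW : ∀ i, c i ∈ W := by
      by_contra hcon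
      push Not at hcon
      obtain ⟨i₀, hi₀⟩ := hcon
      have hc' : c ≠ 0 := by
        intro h
        apply hi₀
        rw [show c i₀ = 0 from congrFun h i₀]
        exact zero_mem W
      obtain ⟨j, hj0, hj⟩ := exists_scale (W := W) c hc'
      have hjW : c j ∉ W := by
        intro hmem
        apply hi₀
        have : c i₀ = c i₀ / c j * c j := by field_simp
        rw [this]
        exact mul_mem (hj i₀) hmem
      have hval : W.valuation ((c j)⁻¹) < 1 := by
        rw [map_inv₀]
        have h5 : 1 < W.valuation (c j) := by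
          rw [← not_le, W.valuation_le_one_iff]
          exact hjW
        exact inv_lt_one_of_one_lt₀ h5
      have h1 := hind (fun i => c i / c j) hj (fun i g => by
        rw [smul_div₀', hcfix, hcfix]) (by
        have : ∑ᶠ i, c i / c j * b i = (c j)⁻¹ * x := by
          rw [finsum_eq_sum_of_fintype, hc, finsum_eq_sum_of_fintype, mul_sum]
          refine sum_congr rfl fun i _ => ?_
          ring
        rw [this, map_mul]
        exact mul_lt_one_of_lt_of_le hval ((W.valuation_le_one_iff _).mpr hx)) j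
      simp only [div_self hj0, map_one, lt_irrefl] at h1
    refine ⟨fun i => ⟨c i, hcW i, hcfix i⟩, ?_⟩
    rw [hc, finsum_eq_sum_of_fintype]
    rfl
  intro x hx hxB g
  apply smul_mem_of_isIntegral (G := G) (W := W)
  let N : Submodule (O G W) F := Submodule.span (O G W) (Set.range b)
  have hN1 : (1 : F) ∈ N := by
    obtain ⟨c, hc⟩ := hcoef 1 (one_mem W) (fun h _ => smul_one h)
    rw [hc]
    exact Submodule.sum_mem _ fun i _ => Submodule.smul_mem _ _ (Submodule.subset_span ⟨i, rfl⟩)
  refine isIntegral_of_smul_mem_submodule (R := O G W) (A := F) (M := F) N ?_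
    (Submodule.fg_span (Set.finite_range b)) x ?_
  · intro hbot
    rw [hbot, Submodule.mem_bot] at hN1
    exact one_ne_zero hN1
  · intro n hn
    induction hn using Submodule.span_induction with
    | mem y hy =>
      obtain ⟨i, rfl⟩ := hy
      obtain ⟨c, hc⟩ := hcoef (x * b i) (mul_mem hx (hbW i)) (fun h hh => by
        rw [smul_mul', hxB h hh, hbfix i h hh])
      rw [smul_eq_mul, hc]
      exact Submodule.sum_mem _ fun i _ => Submodule.smul_mem _ _ (Submodule.subset_span ⟨i, rfl⟩)
    | zero => rw [smul_zero]; exact zero_mem _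
    | add y z _ _ hy hz => rw [smul_add]; exact add_mem hy hz
    | smul c y _ hy => rw [smul_comm]; exact Submodule.smul_mem _ _ hy

end Fermat.Agent.XM.Abs
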