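import Fermat.Agent.WOne.EisConst
import Fermat.Prelude.Def_ModularCurve_X0ModL

/-!
# The function field of `X(M)`

`PG M K ζ v` : the `X = q^{1/M}`-expansion of the (normalised) Eisenstein series of weight 3
attached to `v ∈ (ℤ/M)²`; over `ℂ` with `ζ = zetaM M` it is `M³ (lipC 3)⁻¹ G M 3 v`
(`WOne.G_expansion`, `WOne.cst_eq`), and `G M 3 v ∣[3] γ = G M 3 (vact v γ)` (`WOne.G_slash`).

`XF M K ζ` : the field generated by `j(X^M)` and the quotients `PG v / PG w`, `v`, `w` primitive.
-/

set_option autoImplicit false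

noncomputable section

open ModularCurve

namespace Fermat.Agent.XM

variable (M : ℕ) [NeZero M] (K : Type*) [Field K] (ζ : K)

/-- constant term of `PG v` (for `v 0 = 0`). -/
def cstK (b : ZMod M) : K := if b = 0 then 0 else WOne.ratR 3 (ζ ^ b.val)

/-- power series version. -/
def PGs (v : Fin 2 → ZMod M) : PowerSeries K :=
  WOne.Pser M K ζ (cstK M K ζ (v 1)) 3 (v 0) (v 1)

/-- The `X = q^{1/M}`-expansion of the Eisenstein series of weight `3` attached to `v`. -/
def PG (v : Fin 2 → ZMod M) : LaurentSeries K :=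
  HahnSeries.ofPowerSeries ℤ K (PGs M K ζ v)

/-- primitive vectors. -/
def Prim (v : Fin 2 → ZMod M) : Prop := IsCoprime (v 0) (v 1)

/-- the base field `K(j(X^M))`. -/
def JF : IntermediateField K (LaurentSeries K) :=
  IntermediateField.adjoin K {qExpand K M (jqModC K)}

/-- The function field of `X(M)` over `K`, in the variable `X = q^{1/M}`. -/
def XF : IntermediateField K (LaurentSeries K) :=
  IntermediateField.adjoin K (insert (qExpand K M (jqModC K))
    {x | ∃ v w, Prim M v ∧ Prim M w ∧ x = PG M K ζ v / PG M K ζ w})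

variable {K}

theorem jM_mem : qExpand K M (jqModC K) ∈ XF M K ζ :=
  IntermediateField.subset_adjoin _ _ (Set.mem_insert _ _)

theorem JF_le : JF M K ≤ XF M K ζ := by
  rw [JF, IntermediateField.adjoin_le_iff, Set.singleton_subset_iff]
  exact jM_mem M ζ

theorem PG_div_mem {v w : Fin 2 → ZMod M} (hv : Prim M v) (hw : Prim M w) :
    PG M K ζ v / PG M K ζ w ∈ XF M K ζ :=
  IntermediateField.subset_adjoin _ _ (Set.mem_insert_of_mem _ ⟨v, w, hv, hw, rfl⟩)

end Fermat.Agent.XM
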