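import Fermat.Agent.XM.Basic
import Fermat.Agent.ModPoly.Twist
import Fermat.Agent.Igusa.GaussField

/-!
# Formal properties of the expansions `PG`
-/

set_option autoImplicit false
set_option linter.unusedSectionVars false

noncomputable section

open ModularCurve Matrix
open scoped MatrixGroups

namespace Fermat.Agent.XM

variable {M : ℕ} [NeZero M]

/-! ### primitive vectors -/

/-- the action of `SL(2, ℤ/M)` on vectors -/
def va (v : Fin 2 → ZMod M) (g : SL(2, ZMod M)) : Fin 2 → ZMod M :=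
  v ᵥ* (g : Matrix (Fin 2) (Fin 2) (ZMod M))

theorem va_zero' (v : Fin 2 → ZMod M) (g : SL(2, ZMod M)) :
    va v g 0 = v 0 * g 0 0 + v 1 * g 1 0 := by
  simp [va, Matrix.vecMul, dotProduct, Fin.sum_univ_two]

theorem va_one' (v : Fin 2 → ZMod M) (g : SL(2, ZMod M)) :
    va v g 1 = v 0 * g 0 1 + v 1 * g 1 1 := by
  simp [va, Matrix.vecMul, dotProduct, Fin.sum_univ_two]

theorem va_mul (v : Fin 2 → ZMod M) (g h : SL(2, ZMod M)) : va v (g * h) = va (va v g) h := by
  rw [va, va, va, Matrix.SpecialLinearGroup.coe_mul, Matrix.vecMul_vecMul]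

@[simp] theorem va_one (v : Fin 2 → ZMod M) : va v (1 : SL(2, ZMod M)) = v := by
  rw [va, Matrix.SpecialLinearGroup.coe_one, Matrix.vecMul_one]

theorem va_neg_one (v : Fin 2 → ZMod M) : va v (-1 : SL(2, ZMod M)) = -v := by
  rw [va, Matrix.SpecialLinearGroup.coe_neg, Matrix.SpecialLinearGroup.coe_one, Matrix.vecMul_neg,
    Matrix.vecMul_one]

theorem prim_va {v : Fin 2 → ZMod M} (hv : Prim M v) (g : SL(2, ZMod M)) : Prim M (va v g) := by
  obtain ⟨x, y, h⟩ := hv
  have hdet := g.det_coe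
  rw [Matrix.det_fin_two] at hdet
  refine ⟨x * g 1 1 - y * g 0 1, y * g 0 0 - x * g 1 0, ?_⟩
  rw [va_zero', va_one']
  linear_combination (x * v 0 + y * v 1) * hdet + h

theorem prim_neg {v : Fin 2 → ZMod M} (hv : Prim M v) : Prim M (-v) := by
  obtain ⟨x, y, h⟩ := hv
  exact ⟨-x, -y, by simp only [Pi.neg_apply]; linear_combination h⟩

theorem prim_10 : Prim M ![1, 0] := ⟨1, 0, by simp⟩

theorem prim_01 : Prim M ![0, 1] := ⟨0, 1, by simp⟩

theorem prim_a1 (a : ZMod M) : Prim M ![a, 1] := ⟨0, 1, by simp⟩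

/-! ### coefficients -/

variable {K : Type*} [Field K] {ζ : K}

theorem zc_natCast (hζ : ζ ^ M = 1) (n : ℕ) : ζ ^ (n : ZMod M).val = ζ ^ n := by
  rw [ZMod.val_natCast]
  conv_rhs => rw [← Nat.div_add_mod n M]
  rw [pow_add, pow_mul, hζ, one_pow, one_mul]

theorem zc_add (hζ : ζ ^ M = 1) (a b : ZMod M) : ζ ^ (a + b).val = ζ ^ a.val * ζ ^ b.val := by
  rw [← pow_add, ← zc_natCast hζ (a.val + b.val)]
  congr 2
  push_cast
  rw [ZMod.natCast_zmod_val, ZMod.natCast_zmod_val]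

theorem zc_mul_nat (hζ : ζ ^ M = 1) (b : ZMod M) (n : ℕ) :
    ζ ^ (b.val * n) = ζ ^ (b * (n : ZMod M)).val := by
  rw [← zc_natCast hζ (b.val * n)]
  congr 2
  push_cast
  rw [ZMod.natCast_zmod_val]

theorem coeff_PGs {r : ℕ} (hr : r ≠ 0) (v : Fin 2 → ZMod M) :
    (PGs M K ζ v).coeff r = ∑ x ∈ r.divisorsAntidiagonal, (x.2 : K) ^ 2 *
      ((if (x.1 : ZMod M) = v 0 then ζ ^ ((v 1).val * x.2) else 0) -
        (if (x.1 : ZMod M) = -(v 0) then ζ ^ ((-(v 1)).val * x.2) else 0)) := by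
  rw [PGs, WOne.Pser, PowerSeries.coeff_mk, if_neg hr]
  refine Finset.sum_congr rfl fun x _ => ?_
  simp only [WOne.dterm]
  split_ifs <;> ring

theorem coeff_PGs_zero (v : Fin 2 → ZMod M) :
    (PGs M K ζ v).coeff 0 = if v 0 = 0 then cstK M K ζ (v 1) else 0 := by
  rw [PGs, WOne.Pser, PowerSeries.coeff_mk, if_pos rfl]

theorem cstK_neg (hζ : ζ ^ M = 1) (b : ZMod M) (hb : b ≠ 0 → ζ ^ b.val ≠ 1) :
    cstK M K ζ (-b) = - cstK M K ζ b := by
  rw [cstK, cstK]
  by_cases h : b = 0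
  · rw [if_pos h, if_pos (by rw [h, neg_zero]), neg_zero]
  · rw [if_neg h, if_neg (neg_ne_zero.mpr h)]
    have h1 : ζ ^ (-b).val * ζ ^ b.val = 1 := by
      rw [← zc_add hζ, neg_add_cancel, ZMod.val_zero, pow_zero]
    have h2 := hb h
    have h3 : 1 - ζ ^ b.val ≠ 0 := sub_ne_zero.mpr (Ne.symm h2)
    have h4 : ζ ^ b.val ≠ 0 := right_ne_zero_of_mul_eq_one h1
    have h5 : ζ ^ (-b).val = (ζ ^ b.val)⁻¹ := eq_inv_of_mul_eq_one_left h1
    rw [h5, WOne.ratR, if_pos rfl, WOne.ratR, if_pos rfl]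
    have h6 : 1 - (ζ ^ b.val)⁻¹ ≠ 0 := by
      intro h
      apply h3
      rw [sub_eq_zero] at h ⊢
      have := congrArg (· * ζ ^ b.val) h
      simp only [one_mul, inv_mul_cancel₀ h4] at this
      exact this.symm
    field_simp
    ring

theorem ne_one_of_prim (hζ : IsPrimitiveRoot ζ M) {b : ZMod M} (hb : b ≠ 0) : ζ ^ b.val ≠ 1 := by
  intro h
  have h1 := (hζ.pow_eq_one_iff_dvd _).mp h
  have h2 : b.val ≠ 0 := by rwa [Ne, ZMod.val_eq_zero]
  exact absurd (Nat.le_of_dvd (Nat.pos_of_ne_zero h2) h1) (not_le.mpr b.val_lt)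

theorem PGs_neg (hζ : IsPrimitiveRoot ζ M) (v : Fin 2 → ZMod M) :
    PGs M K ζ (-v) = - PGs M K ζ v := by
  ext r
  rw [map_neg]
  by_cases hr : r = 0
  · subst hr
    rw [coeff_PGs_zero, coeff_PGs_zero]
    simp only [Pi.neg_apply, neg_eq_zero]
    split_ifs
    · exact cstK_neg hζ.pow_eq_one _ (fun h => ne_one_of_prim hζ h)
    · rw [neg_zero]
  · rw [coeff_PGs hr, coeff_PGs hr, ← Finset.sum_neg_distrib]
    refine Finset.sum_congr rfl fun x _ => ?_
    simp only [Pi.neg_apply, neg_neg]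
    ring

theorem PG_neg (hζ : IsPrimitiveRoot ζ M) (v : Fin 2 → ZMod M) :
    PG M K ζ (-v) = - PG M K ζ v := by
  rw [PG, PG, PGs_neg hζ, map_neg]

/-- the upper triangular unipotent matrix. -/
def TM : SL(2, ZMod M) := ⟨!![1, 1; 0, 1], by simp⟩

theorem va_TM_zero (v : Fin 2 → ZMod M) : va v TM 0 = v 0 := by
  rw [va_zero']; simp [TM]

theorem va_TM_one (v : Fin 2 → ZMod M) : va v TM 1 = v 0 + v 1 := by
  rw [va_one']; simp [TM]

theorem coeff_PGs_TM (hζ : ζ ^ M = 1) (v : Fin 2 → ZMod M) (r : ℕ) :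
    (PGs M K ζ (va v TM)).coeff r = ζ ^ r * (PGs M K ζ v).coeff r := by
  by_cases hr : r = 0
  · subst hr
    rw [coeff_PGs_zero, coeff_PGs_zero, va_TM_zero, va_TM_one]
    by_cases h : v 0 = 0
    · rw [if_pos h, if_pos h, h, zero_add, pow_zero, one_mul]
    · rw [if_neg h, if_neg h, mul_zero]
  · rw [coeff_PGs hr, coeff_PGs hr, Finset.mul_sum, va_TM_zero, va_TM_one]
    refine Finset.sum_congr rfl fun x hx => ?_
    obtain ⟨hx1, hx2⟩ := Nat.mem_divisorsAntidiagonal.mp hx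
    have e1 : (if (x.1 : ZMod M) = v 0 then ζ ^ ((v 0 + v 1).val * x.2) else 0) =
        ζ ^ r * (if (x.1 : ZMod M) = v 0 then ζ ^ ((v 1).val * x.2) else 0) := by
      split_ifs with h
      · rw [zc_mul_nat hζ, zc_mul_nat hζ, add_mul, zc_add hζ, ← h, ← Nat.cast_mul, hx1,
          zc_natCast hζ]
      · rw [mul_zero]
    have e2 : (if (x.1 : ZMod M) = -(v 0) then ζ ^ ((-(v 0 + v 1)).val * x.2) else 0) =
        ζ ^ r * (if (x.1 : ZMod M) = -(v 0) then ζ ^ ((-(v 1)).val * x.2) else 0) := by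
      split_ifs with h
      · rw [zc_mul_nat hζ, zc_mul_nat hζ, neg_add, add_mul, zc_add hζ, ← h, ← Nat.cast_mul, hx1,
          zc_natCast hζ]
      · rw [mul_zero]
    rw [e1, e2]
    ring

/-- `ζ` as a unit -/
def zu (hζ : IsPrimitiveRoot ζ M) : Kˣ := (hζ.isUnit (NeZero.ne M)).unit

@[simp] theorem coe_zu (hζ : IsPrimitiveRoot ζ M) : ((zu hζ : Kˣ) : K) = ζ := rfl

theorem PG_TM (hζ : IsPrimitiveRoot ζ M) (v : Fin 2 → ZMod M) :
    PG M K ζ (va v TM) = ModPoly.twist (zu hζ) (PG M K ζ v) := by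
  ext n
  rw [ModPoly.twist_coeff, PG, PG]
  rcases le_or_gt 0 n with hn | hn
  · lift n to ℕ using hn
    rw [HahnSeries.ofPowerSeries_apply_coeff, HahnSeries.ofPowerSeries_apply_coeff,
      coeff_PGs_TM hζ.pow_eq_one]
    simp
  · rw [ofPowerSeries_coeff_of_neg _ hn, ofPowerSeries_coeff_of_neg _ hn, mul_zero]

/-! ### orders -/

/-- `|a| = min(a, M - a)` -/
def ab (a : ZMod M) : ℕ := min a.val (-a).val

theorem ab_neg (a : ZMod M) : ab (-a) = ab a := by
  rw [ab, ab, neg_neg, min_comm]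

theorem ab_zero : ab (0 : ZMod M) = 0 := by simp [ab]

theorem ab_eq_zero {a : ZMod M} : ab a = 0 ↔ a = 0 := by
  rw [ab]
  constructor
  · intro h
    rcases Nat.min_eq_zero_iff.mp h with h | h
    · exact (ZMod.val_eq_zero _).mp h
    · exact neg_eq_zero.mp ((ZMod.val_eq_zero _).mp h)
  · rintro rfl; simp

theorem coeff_PGs_of_lt {v : Fin 2 → ZMod M} {r : ℕ} (hr : r < ab (v 0)) :
    (PGs M K ζ v).coeff r = 0 := by
  by_cases h0 : r = 0
  · subst h0
    rw [coeff_PGs_zero, if_neg]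
    intro h
    rw [h, ab_zero] at hr
    exact lt_irrefl _ hr
  · rw [coeff_PGs h0]
    apply Finset.sum_eq_zero
    intro x hx
    obtain ⟨hx1, hx2⟩ := Nat.mem_divisorsAntidiagonal.mp hx
    have hle : x.1 ≤ r := Nat.le_of_dvd (Nat.pos_of_ne_zero hx2) ⟨x.2, hx1.symm⟩
    have hr1 : r < (v 0).val := lt_of_lt_of_le hr (min_le_left _ _)
    have hr2 : r < (-(v 0)).val := lt_of_lt_of_le hr (min_le_right _ _)
    have hlt : x.1 < M := lt_of_le_of_lt hle (hr1.trans (v 0).val_lt)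
    have e1 : ¬ ((x.1 : ZMod M) = v 0) := by
      intro h
      have := congrArg ZMod.val h
      rw [ZMod.val_cast_of_lt hlt] at this
      omega
    have e2 : ¬ ((x.1 : ZMod M) = -(v 0)) := by
      intro h
      have := congrArg ZMod.val h
      rw [ZMod.val_cast_of_lt hlt] at this
      omega
    rw [if_neg e1, if_neg e2]; ring

theorem neg_val_add {a : ZMod M} (ha : a ≠ 0) : a.val + (-a).val = M := by
  rw [ZMod.neg_val, if_neg ha]
  have := a.val_lt
  omega

/-- the leading coefficient -/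
theorem coeff_PGs_ab {v : Fin 2 → ZMod M} (h0 : v 0 ≠ 0) :
    (PGs M K ζ v).coeff (ab (v 0)) =
      (if (v 0).val ≤ (-(v 0)).val then ζ ^ (v 1).val else 0) -
        (if (-(v 0)).val ≤ (v 0).val then ζ ^ (-(v 1)).val else 0) := by
  have hab : ab (v 0) ≠ 0 := fun h => h0 (ab_eq_zero.mp h)
  have habM : ab (v 0) < M := lt_of_le_of_lt (min_le_left _ _) (v 0).val_lt
  rw [coeff_PGs hab, Finset.sum_eq_single (ab (v 0), 1)]
  · have e1 : ((ab (v 0) : ℕ) : ZMod M) = v 0 ↔ (v 0).val ≤ (-(v 0)).val := by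
      constructor
      · intro h
        have := congrArg ZMod.val h
        rw [ZMod.val_cast_of_lt habM] at this
        rw [← this]; exact min_le_right _ _
      · intro h
        rw [ab, min_eq_left h, ZMod.natCast_zmod_val]
    have e2 : ((ab (v 0) : ℕ) : ZMod M) = -(v 0) ↔ (-(v 0)).val ≤ (v 0).val := by
      constructor
      · intro h
        have := congrArg ZMod.val h
        rw [ZMod.val_cast_of_lt habM] at this
        rw [← this]; exact min_le_left _ _
      · intro h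
        rw [ab, min_eq_right h, ZMod.natCast_zmod_val]
    simp only [e1, e2, Nat.cast_one, one_pow, one_mul, mul_one]
  · intro x hx hne
    obtain ⟨hx1, hx2⟩ := Nat.mem_divisorsAntidiagonal.mp hx
    have hle : x.1 ≤ ab (v 0) := Nat.le_of_dvd (Nat.pos_of_ne_zero hx2) ⟨x.2, hx1.symm⟩
    have hlt : x.1 < ab (v 0) := by
      refine lt_of_le_of_ne hle fun h => hne ?_
      rw [h] at hx1
      have : x.2 = 1 := Nat.eq_of_mul_eq_mul_left (Nat.pos_of_ne_zero hab)
        (hx1.trans (mul_one _).symm)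
      exact Prod.ext h this
    have e1 : ¬ ((x.1 : ZMod M) = v 0) := by
      intro h'
      have h3 := congrArg ZMod.val h'
      rw [ZMod.val_cast_of_lt (hlt.trans habM)] at h3
      have := min_le_left (v 0).val (-(v 0)).val
      rw [ab] at hlt
      omega
    have e2 : ¬ ((x.1 : ZMod M) = -(v 0)) := by
      intro h'
      have h3 := congrArg ZMod.val h'
      rw [ZMod.val_cast_of_lt (hlt.trans habM)] at h3
      have := min_le_right (v 0).val (-(v 0)).val
      rw [ab] at hlt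
      omega
    rw [if_neg e1, if_neg e2]; ring
  · intro hx
    exact absurd (Nat.mem_divisorsAntidiagonal.mpr ⟨mul_one _, hab⟩) hx

end Fermat.Agent.XM
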